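import Fermat.Agent.DeRhamCohomology.BlochKato
import Fermat.Agent.PadicDescent.Functorial

/-!
# Hodge–Tate bases under a change of basis, and the filtration from the weights
-/

set_option autoImplicit false
set_option linter.unusedSectionVars false

noncomputable section

open Finset FA.TateSen FA.BDR FA.Sen FA.PadicHodge FA.PadicDescent FA.DRCoh
open scoped Matrix

namespace FA.CurveDR

variable {p : ℕ} [hp : Fact p.Prime] {d e : Type} [Fintype d] [DecidableEq d] [Fintype e]
  [DecidableEq e]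

local notation "Cp" => ℂ_[p]
local notation "G" => PadicAlgCl p ≃ₐ[ℚ_[p]] PadicAlgCl p

/-- An isomorphism carries a Hodge–Tate basis to one with the same weights. -/
theorem exists_conj_of_iso {ρ : G → Matrix d d ℚ_[p]} {ρ' : G → Matrix e e ℚ_[p]}
    {F : Matrix d e ℚ_[p]} {R : Matrix e d ℚ_[p]} (hFR : F * R = 1) (hRF : R * F = 1)
    (hF : ∀ σ, F * ρ' σ = ρ σ * F) (e₀ : d ≃ e) {P : (Matrix e e Cp)ˣ} {j : e → ℤ}
    (hP : ∀ σ, FA.Sen.conj (cpRep ρ') P σ = Matrix.diagonal fun i => twist p (j i) σ) :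
    ∃ Q : (Matrix d d Cp)ˣ, ∀ σ,
      FA.Sen.conj (cpRep ρ) Q σ = Matrix.diagonal fun i => twist p (j (e₀ i)) σ := by
  set f : ℚ_[p] →+* Cp := algebraMap ℚ_[p] Cp
  set X : Matrix d d Cp := (F.map f * (P : Matrix e e Cp)).submatrix id e₀ with hX
  set Y : Matrix d d Cp := ((↑P⁻¹ : Matrix e e Cp) * R.map f).submatrix e₀ id with hY
  have hFR' : F.map f * R.map f = 1 := by
    rw [← Matrix.map_mul, hFR, Matrix.map_one _ (map_zero _) (map_one _)]
  have hRF' : R.map f * F.map f = 1 := by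
    rw [← Matrix.map_mul, hRF, Matrix.map_one _ (map_zero _) (map_one _)]
  have hXY : X * Y = 1 := by
    rw [hX, hY, Matrix.submatrix_mul_equiv, Matrix.mul_assoc,
      ← Matrix.mul_assoc (P : Matrix e e Cp), Units.mul_inv, Matrix.one_mul, hFR',
      Matrix.submatrix_id_id]
  refine ⟨⟨X, Y, hXY, mul_eq_one_comm.1 hXY⟩, fun σ => FA.Sen.conj_eq_iff.2 ?_⟩
  show cpRep ρ σ * galM σ X = X * _
  have h1 : galM σ X = (F.map f * (P : Matrix e e Cp).map (gal σ)).submatrix id e₀ := by
    rw [hX, galM, RingHom.mapMatrix_apply, ← Matrix.submatrix_map,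
      Matrix.map_mul (f := gal σ), map_gal_scalar]
  have h2 := FA.Sen.conj_eq_iff.1 (hP σ)
  rw [galM, RingHom.mapMatrix_apply] at h2
  have h3 : cpRep ρ σ * F.map f = F.map f * cpRep ρ' σ := by
    rw [cpRep, cpRep, ← Matrix.map_mul, ← Matrix.map_mul, hF]
  have h4 : cpRep ρ σ * F.map f * (P : Matrix e e Cp).map (gal σ) =
      F.map f * (P : Matrix e e Cp) * Matrix.diagonal fun i => twist p (j i) σ := by
    rw [h3, Matrix.mul_assoc, h2, ← Matrix.mul_assoc]
  rw [h1]
  refine Matrix.ext fun a k => ?_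
  have h5 := congrFun (congrFun h4 a) (e₀ k)
  rw [Matrix.mul_diagonal, Matrix.mul_assoc] at h5
  rw [Matrix.mul_diagonal, hX, Matrix.submatrix_apply, id_eq, ← h5, Matrix.mul_apply,
    Matrix.mul_apply]
  rfl

/-- **The steps of the filtration from any Hodge–Tate basis.** -/
theorem finrank_filDR_weights {ρ : G → Matrix d d ℚ_[p]} (h : IsDeRham ρ)
    {P : (Matrix d d Cp)ˣ} {j : d → ℤ}
    (hP : ∀ σ, FA.Sen.conj (cpRep ρ) P σ = Matrix.diagonal fun i => twist p (j i) σ) (m : ℤ) :
    Module.finrank ℚ_[p] (filDR ρ m) = (univ.filter fun i => j i ≤ -m).card := by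
  classical
  obtain ⟨U, k, hU⟩ := exists_lattice h
  obtain ⟨Q, -, hQ⟩ := hU.exists_conj
  rw [(finrank_filDR hU m).2,
    card_eq_sum_card_fiberwise (t := univ.image k ∪ univ.image j) (f := k)
      fun i _ => mem_union_left _ (mem_image_of_mem k (mem_univ i)),
    card_eq_sum_card_fiberwise (t := univ.image k ∪ univ.image j) (f := j)
      fun i _ => mem_union_right _ (mem_image_of_mem j (mem_univ i))]
  refine sum_congr rfl fun v _ => ?_
  rw [filter_filter, filter_filter]
  by_cases hv : v ≤ -m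
  · have hf : ∀ g : d → ℤ, (univ.filter fun a => g a ≤ -m ∧ g a = v) =
        univ.filter fun a => g a = v := fun g =>
      filter_congr fun i _ => ⟨fun h => h.2, fun h => ⟨h ▸ hv, h⟩⟩
    rw [hf, hf, card_weight_eq hQ v, card_weight_eq hP v]
  · have hf : ∀ g : d → ℤ, (univ.filter fun a => g a ≤ -m ∧ g a = v) = ∅ := fun g =>
      filter_false_of_mem fun i _ h => hv (h.2 ▸ h.1)
    rw [hf, hf]

end FA.CurveDR
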