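import Fermat.Agent.CurveDeRham.Basis
import Fermat.Agent.BDRCohomology.Extension
import Fermat.Agent.PadicCharacters.Main
import Fermat.Agent.AbelianGeometric.Main
import Fermat.Agent.GalCoh.KummerUnits
import Fermat.Agent.RT.Tate.Mult
import Fermat.Agent.RT.Tate.Det
import Fermat.Agent.Root.SummaryGaloisGL2Padic

/-!
# An elliptic curve with multiplicative reduction at `p` is de Rham at `p`

On the decomposition group at `p` the `p`-adic representation is an extension of a quadratic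
character by the product of that character and the cyclotomic one, so it is de Rham with the
weights `1` and `0`.
-/

set_option autoImplicit false
set_option linter.unusedSectionVars false

noncomputable section

open Finset Matrix WeierstrassCurve FA.TateSen FA.BDR FA.Sen FA.PadicHodge FA.PadicDescent
  FA.PadicChar FA.AbelianGeometric FA.RT.Tate FA.Frob FA.EC
open scoped WeierstrassCurve.Affine

namespace FA.CurveDR

variable {p : ℕ} [hp : Fact p.Prime] {W : WeierstrassCurve ℤ} [(ratCurve W).IsElliptic]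

local notation "Cp" => ℂ_[p]
local notation "G" => PadicAlgCl p ≃ₐ[ℚ_[p]] PadicAlgCl p

/-- The `p`-adic representation of a curve at `p`. -/
def curveAtP (B : TateBasis p W) (τ : G) : Matrix (Fin 2) (Fin 2) ℚ_[p] :=
  (B.rep (localGaloisToGlobal p τ)).map (PadicInt.Coe.ringHom (p := p))

theorem isQpRep_curveAtP (B : TateBasis p W) : IsQpRep p (Fin 2) (curveAtP B) where
  cont := by
    have h : Continuous fun τ : G => B.rep (localGaloisToGlobal p τ) :=
      (FA.PadicImage.continuous_rep B).comp FA.GalCoh.continuous_loc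
    exact h.matrix_map continuous_subtype_val
  map_one := by rw [curveAtP, map_one, map_one, Matrix.map_one _ (map_zero _) (map_one _)]
  map_mul σ τ := by rw [curveAtP, curveAtP, curveAtP, map_mul, map_mul, Matrix.map_mul]

theorem det_curveAtP (B : TateBasis p W) (τ : G) :
    (curveAtP B τ).det = ((chi p τ : ℤ_[p]) : ℚ_[p]) := by
  rw [curveAtP, ← RingHom.mapMatrix_apply, ← RingHom.map_det, B.det_rep, cycP_loc]
  rfl

/-- The place at `p` is of multiplicative reduction. -/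
theorem multAt_padicPlace (hΔ : W.Δ ≠ 0) (hd : (p : ℤ) ∣ W.Δ) (hc : ¬ (p : ℤ) ∣ W.c₄) :
    MultAt W p (padicPlace p) :=
  ⟨hΔ, hp.out, hd, hc, FA.GalCoh.liesOverPrime_padicPlace p⟩

/-- **The triangular shape at `p`.** -/
theorem exists_shape (B : TateBasis p W) (hp2 : p ≠ 2) (hm : MultAt W p (padicPlace p)) :
    ∃ (C : (Matrix (Fin 2) (Fin 2) ℚ_[p])ˣ) (η : G →* ℚ_[p]) (y : G → ℚ_[p]),
      Continuous η ∧ Continuous y ∧ (∀ τ, η τ ^ 2 = 1) ∧
        ∀ τ, curveAtP B τ * (C : Matrix (Fin 2) (Fin 2) ℚ_[p]) =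
          (C : Matrix (Fin 2) (Fin 2) ℚ_[p]) *
            !![((chi p τ : ℤ_[p]) : ℚ_[p]) * η τ, y τ; 0, η τ] := by
  obtain ⟨C₀, hC₀, h⟩ := B.exists_triangular hp2 hm
  obtain ⟨C, hC⟩ : IsUnit (C₀.map (PadicInt.Coe.ringHom (p := p))) :=
    ((Matrix.isUnit_iff_isUnit_det _).2 hC₀).map (PadicInt.Coe.ringHom (p := p)).mapMatrix
  set T : G → Matrix (Fin 2) (Fin 2) ℚ_[p] := fun τ =>
    (↑C⁻¹ : Matrix (Fin 2) (Fin 2) ℚ_[p]) * curveAtP B τ * (C : Matrix (Fin 2) (Fin 2) ℚ_[p])
  have hT : ∀ τ, curveAtP B τ * (C : Matrix (Fin 2) (Fin 2) ℚ_[p]) =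
      (C : Matrix (Fin 2) (Fin 2) ℚ_[p]) * T τ := fun τ => by
    simp only [T, ← mul_assoc, Units.mul_inv, one_mul]
  have hρ := isQpRep_curveAtP B
  have hTc : Continuous T := (continuous_const.mul hρ.cont).mul continuous_const
  have hT1 : T 1 = 1 := by simp only [T, hρ.map_one, mul_one, Units.inv_mul]
  have hTm : ∀ σ τ, T (σ * τ) = T σ * T τ := fun σ τ => by
    simp only [T, hρ.map_mul, mul_assoc, Units.mul_inv_cancel_left]
  have hshape : ∀ τ, T τ 1 0 = 0 ∧ T τ 1 1 ^ 2 = 1 := fun τ => by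
    obtain ⟨x, y, z, he, hz, -⟩ := h _ (localGaloisToGlobal_mem_decompositionSubgroup p τ)
    have he' := congrArg (fun M : Matrix (Fin 2) (Fin 2) ℤ_[p] =>
      M.map (PadicInt.Coe.ringHom (p := p))) he
    simp only [Matrix.map_mul, ← hC] at he'
    have hTe : T τ = (!![x, y; 0, z]).map (PadicInt.Coe.ringHom (p := p)) := by
      simp only [T, curveAtP, mul_assoc, he', Units.inv_mul_cancel_left]
    rw [hTe]
    refine ⟨by simp, ?_⟩
    rcases hz with rfl | rfl <;> simp
  let η : G →* ℚ_[p] :=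
    { toFun := fun τ => T τ 1 1
      map_one' := by rw [hT1, Matrix.one_apply_eq]
      map_mul' := fun σ τ => by
        rw [hTm, Matrix.mul_apply, Fin.sum_univ_two, (hshape σ).1, zero_mul, zero_add] }
  have hent : ∀ a b, Continuous fun τ => T τ a b := fun a b => hTc.matrix_elem a b
  refine ⟨C, η, fun τ => T τ 0 1, hent 1 1, hent 0 1, fun τ => (hshape τ).2, fun τ => ?_⟩
  rw [hT τ]
  congr 1
  have hdet : T τ 0 0 * T τ 1 1 = ((chi p τ : ℤ_[p]) : ℚ_[p]) := by
    have h1 : (T τ).det = (curveAtP B τ).det := Matrix.det_units_conj' C _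
    rw [Matrix.det_fin_two, (hshape τ).1, mul_zero, sub_zero, det_curveAtP] at h1
    exact h1
  have h00 : T τ 0 0 = ((chi p τ : ℤ_[p]) : ℚ_[p]) * T τ 1 1 := by
    rw [← hdet, mul_assoc, ← pow_two, (hshape τ).2, mul_one]
  ext a b
  fin_cases a <;> fin_cases b <;> simp [η, h00, (hshape τ).1]

/-- The two quadratic pieces. -/
theorem twist_piece {η : G →* ℚ_[p]} (hη : Continuous η) (h2 : ∀ τ, η τ ^ 2 = 1) :
    (IsDeRham (charRep η) ∧ IsDeRham (charRep (twistChar η 1))) ∧
      ∃ P : (Matrix Unit Unit Cp)ˣ,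
        (∀ τ, FA.Sen.conj (cpRep (charRep η)) P τ = Matrix.diagonal fun _ => twist p 0 τ) ∧
        ∀ τ, FA.Sen.conj (cpRep (charRep (twistChar η 1))) P τ =
          Matrix.diagonal fun _ => twist p 1 τ := by
  have hne : ((η.ker : Subgroup G) : Set G) = η ⁻¹' {x | x ≠ -1} := by
    ext τ
    simp only [SetLike.mem_coe, MonoidHom.mem_ker, Set.mem_preimage, Set.mem_ofPred_eq]
    refine ⟨fun h => by rw [h]; norm_num, fun h => ?_⟩
    exact ((sq_eq_one_iff).1 (h2 τ)).resolve_right h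
  have hV : IsOpen (η.ker : Set G) := hne ▸ isOpen_ne.preimage hη
  have hchi : Continuous fun τ : G => ((chi p τ : ℤ_[p]) : ℚ_[p]) := by
    have h1 : Continuous fun τ : G => (chi p τ : ℤ_[p]) :=
      Units.continuous_val.comp continuous_chi
    exact continuous_subtype_val.comp h1
  have hη1 : Continuous (twistChar η 1) := by
    show Continuous fun τ => η τ * ((chi p τ : ℤ_[p]) : ℚ_[p]) ^ (1 : ℤ)
    simp only [zpow_one]
    exact hη.mul hchi
  have h1 : ∀ τ ∈ η.ker, charRep η τ = 1 := fun τ hτ => by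
    rw [charRep, MonoidHom.mem_ker.1 hτ]
    exact Matrix.diagonal_one
  obtain ⟨P, hP⟩ := exists_cp_basis_of_finite_image (isQpRep_charRep hη) hV h1
  refine ⟨⟨isDeRham_of_finite_image (isQpRep_charRep hη) hV h1,
    isDeRham_of_isLocAlg hη1 (j := 1) ⟨η.ker, hV, fun τ hτ _ => ?_⟩⟩, P, hP, fun τ => ?_⟩
  · show η τ * _ = _
    rw [MonoidHom.mem_ker.1 hτ, one_mul]
  · have e : cpRep (charRep (twistChar η 1)) τ = twist p 1 τ • cpRep (charRep η) τ := by
      refine Matrix.ext fun a b => ?_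
      show algebraMap ℚ_[p] Cp (Matrix.diagonal (fun _ => η τ * _) a b) =
        twist p 1 τ * algebraMap ℚ_[p] Cp (Matrix.diagonal (fun _ => η τ) a b)
      rw [Matrix.diagonal_apply_eq, Matrix.diagonal_apply_eq, map_mul, twist, mul_comm]
    rw [FA.Sen.conj, e, Matrix.mul_smul, Matrix.smul_mul]
    have := hP τ
    rw [FA.Sen.conj] at this
    rw [this, ← Matrix.diagonal_smul]
    congr 1
    funext a
    rw [Pi.smul_apply, smul_eq_mul, twist_zero, mul_one]

/-- **Multiplicative reduction at `p` gives a de Rham representation of weights `1` and `0`.** -/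
theorem isDeRham_curveAtP (B : TateBasis p W) (hp2 : p ≠ 2) (hm : MultAt W p (padicPlace p)) :
    IsDeRham (curveAtP B) ∧ ∃ P : (Matrix (Fin 2) (Fin 2) Cp)ˣ, ∀ τ,
      FA.Sen.conj (cpRep (curveAtP B)) P τ =
        Matrix.diagonal fun i => twist p (![1, 0] i) τ := by
  obtain ⟨C, η, y, hη, hy, h2, hC⟩ := exists_shape B hp2 hm
  obtain ⟨⟨hD, hA⟩, P, hP0, hP1⟩ := twist_piece hη h2
  set b : G → Matrix Unit Unit ℚ_[p] := fun τ => Matrix.of fun _ _ => y τ
  set ρ' : G → Matrix (Unit ⊕ Unit) (Unit ⊕ Unit) ℚ_[p] := fun τ =>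
    Matrix.fromBlocks (charRep (twistChar η 1) τ) (b τ) 0 (charRep η τ) with hρ'
  let e₀ : Fin 2 ≃ Unit ⊕ Unit :=
    { toFun := ![Sum.inl (), Sum.inr ()]
      invFun := Sum.elim (fun _ => 0) fun _ => 1
      left_inv := fun i => by fin_cases i <;> rfl
      right_inv := fun s => by rcases s with _ | _ <;> rfl }
  have hTρ : ∀ τ, ρ' τ = (!![((chi p τ : ℤ_[p]) : ℚ_[p]) * η τ, y τ; 0, η τ]).submatrix
      e₀.symm e₀.symm := fun τ => by
    refine Matrix.ext fun s t => ?_
    rcases s with _ | _ <;> rcases t with _ | _ <;>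
      simp [hρ', b, e₀, charRep, twistChar, mul_comm]
  set F : Matrix (Fin 2) (Unit ⊕ Unit) ℚ_[p] :=
    (C : Matrix (Fin 2) (Fin 2) ℚ_[p]).submatrix id e₀.symm
  set R : Matrix (Unit ⊕ Unit) (Fin 2) ℚ_[p] :=
    (↑C⁻¹ : Matrix (Fin 2) (Fin 2) ℚ_[p]).submatrix e₀.symm id
  have hFR : F * R = 1 := by
    rw [Matrix.submatrix_mul_equiv, Units.mul_inv, Matrix.submatrix_id_id]
  have hRF : R * F = 1 := by
    rw [← Matrix.submatrix_mul _ _ _ id _ Function.bijective_id, Units.inv_mul,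
      Matrix.submatrix_one_equiv]
  have hF : ∀ τ, F * ρ' τ = curveAtP B τ * F := fun τ => by
    rw [hTρ, Matrix.submatrix_mul_equiv, ← hC,
      Matrix.submatrix_mul _ _ _ id _ Function.bijective_id, Matrix.submatrix_id_id]
  have hρ := isQpRep_curveAtP B
  have hU : IsQpRep p (Unit ⊕ Unit) ρ' := by
    have e : ∀ τ, ρ' τ = R * (curveAtP B τ * F) := fun τ => by
      rw [← hF, ← Matrix.mul_assoc, hRF, Matrix.one_mul]
    refine ⟨?_, ?_, fun σ τ => ?_⟩
    · rw [funext e]
      exact continuous_const.matrix_mul (hρ.cont.matrix_mul continuous_const)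
    · rw [e, hρ.map_one, Matrix.one_mul, hRF]
    · rw [e, e, e, hρ.map_mul]
      simp only [Matrix.mul_assoc]
      rw [← Matrix.mul_assoc F R, hFR, Matrix.one_mul]
  obtain ⟨hdR, Q, hQ⟩ := FA.BDRCoh.isDeRham_fromBlocks hU hA hD (j := fun _ => 1)
    (k := fun _ => 0) hP1 hP0 fun _ _ => zero_lt_one
  refine ⟨isDeRham_quotient hFR hF hdR, ?_⟩
  obtain ⟨Q', hQ'⟩ := exists_conj_of_iso hFR hRF hF e₀ hQ
  refine ⟨Q', fun τ => (hQ' τ).trans (congrArg Matrix.diagonal (funext fun i => ?_))⟩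
  fin_cases i <;> rfl

end FA.CurveDR
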